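/-
S56 / block EC / BASE CASE : the exports of the sub-blocks Conj (A0), Loc (A4), Dict (A5)
(co-architect helper58):
  isConj_complexConjugation, IsConj.mul_self, IsConj.smul_mu   (ConjBasic)
  card_minus                                                    (Minus)
  cntT_H2E  (and opS_iterate, ...)                              (LocMain, LocOp)
  units_count                                                   (UnitsCount)
-/
import Fermat.Agent.S56.EC.Base.Dict.WIP.ConjBasic
import Fermat.Agent.S56.EC.Base.Dict.WIP.Minus
import Fermat.Agent.S56.EC.Base.Dict.WIP.LocMain
import Fermat.Agent.S56.EC.Base.Dict.WIP.UnitsCount
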